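import Fermat.Agent.QuadraticLFF.Symbol
import Fermat.Agent.KurlbergRudnick.Moebius

/-!
# Sums of the quadratic symbol

The sum of `(r / f)` over the residues vanishes unless `f` is a square, when it counts the residues
prime to `f`; this gives the exact averages of the coefficients of the L-functions.
-/

set_option autoImplicit false
set_option linter.style.openClassical false
set_option linter.style.haveILetI false
set_option linter.unusedSectionVars false

noncomputable section

open scoped Classical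

namespace FA.QuadraticLFF

open Polynomial KurlbergRudnick

variable {k : Type*} [Field k] [Fintype k]

variable (k) in
/-- The polynomials of degree less than `n`. -/
def lowSet (n : ℕ) : Finset k[X] :=
  (Set.finite_range fun a : SquarefreeFF.Deg k n => a.1).toFinset

theorem mem_lowSet {n : ℕ} {r : k[X]} : r ∈ lowSet k n ↔ r.degree < n := by
  simp [lowSet, SquarefreeFF.Deg, mem_degreeLT]

theorem card_lowSet (n : ℕ) : (lowSet k n).card = Fintype.card k ^ n := by
  rw [← SquarefreeFF.natCard_deg, lowSet,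
    ← Set.ncard_eq_toFinset_card _ (Set.finite_range _), ← Nat.card_coe_set_eq,
    Nat.card_range_of_injective]
  exact fun a b h => Subtype.ext h

theorem degree_lt_of_monic_deg {f : k[X]} (hf : f.Monic) {r : k[X]}
    (h : r ∈ lowSet k f.natDegree) : r.degree < f.degree := by
  rw [degree_eq_natDegree hf.ne_zero]
  exact mem_lowSet.mp h

/-- Sums of periodic functions over the monic polynomials of degree `n`. -/
theorem sum_periodic {f : k[X]} (hf : f.Monic) {n : ℕ} (hn : f.natDegree ≤ n) (F : k[X] → ℤ)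
    (hF : ∀ D E, f ∣ D - E → F D = F E) :
    ∑ D ∈ monicSet k n, F D =
      (Fintype.card k : ℤ) ^ (n - f.natDegree) * ∑ r ∈ lowSet k f.natDegree, F r := by
  have hinj : Set.InjOn (fun x : k[X] × k[X] => f * x.1 + x.2)
      ↑(monicSet k (n - f.natDegree) ×ˢ lowSet k f.natDegree) := by
    rintro ⟨B, r⟩ hx ⟨B', r'⟩ hy (h : f * B + r = f * B' + r')
    simp only [Finset.mem_coe, Finset.mem_product] at hx hy
    have h1 : r - r' = 0 := eq_zero_of_dvd_of_degree_lt (p := f) ⟨B' - B, by linear_combination h⟩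
      ((degree_sub_le r r').trans_lt
        (max_lt (degree_lt_of_monic_deg hf hx.2) (degree_lt_of_monic_deg hf hy.2)))
    have h2 : f * B = f * B' := by linear_combination h - h1
    exact Prod.ext (mul_left_cancel₀ hf.ne_zero h2) (sub_eq_zero.mp h1)
  have himg : (monicSet k (n - f.natDegree) ×ˢ lowSet k f.natDegree).image
      (fun x => f * x.1 + x.2) = monicSet k n := by
    refine Finset.eq_of_subset_of_card_le (fun D hD => ?_) ?_
    · obtain ⟨⟨B, r⟩, hx, rfl⟩ := Finset.mem_image.mp hD
      obtain ⟨hB, hr⟩ := Finset.mem_product.mp hx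
      obtain ⟨hBm, hBd⟩ := mem_monicSet.mp hB
      have hlt : r.degree < (f * B).degree := (degree_lt_of_monic_deg hf hr).trans_le
        (degree_le_mul_left _ hBm.ne_zero)
      refine mem_monicSet.mpr ⟨(hf.mul hBm).add_of_left hlt, ?_⟩
      rw [natDegree_eq_of_degree_eq (degree_add_eq_left_of_degree_lt hlt),
        hf.natDegree_mul hBm, hBd]
      omega
    · rw [Finset.card_image_of_injOn hinj, Finset.card_product, card_monicSet, card_lowSet,
        card_monicSet, ← pow_add, Nat.sub_add_cancel hn]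
  rw [← himg, Finset.sum_image hinj, Finset.sum_product, ← Nat.cast_pow, ← card_monicSet,
    ← nsmul_eq_mul, ← Finset.sum_const]
  exact Finset.sum_congr rfl fun B _ => Finset.sum_congr rfl fun r _ =>
    hF _ _ ⟨B, by simp⟩

theorem card_lowSet_dvd {A : k[X]} (hA : A.Monic) {n : ℕ} (hn : A.natDegree ≤ n) :
    ((lowSet k n).filter (A ∣ ·)).card = Fintype.card k ^ (n - A.natDegree) := by
  have h : (lowSet k n).filter (A ∣ ·) = (lowSet k (n - A.natDegree)).image (A * ·) := by
    ext r
    simp only [Finset.mem_filter, Finset.mem_image, mem_lowSet]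
    have hiff : ∀ B : k[X],
        (A * B).degree < n ↔ B.degree < ((n - A.natDegree : ℕ) : WithBot ℕ) := by
      intro B
      rcases eq_or_ne B 0 with rfl | hB
      · simp
      rw [← natDegree_lt_iff_degree_lt (mul_ne_zero hA.ne_zero hB),
        ← natDegree_lt_iff_degree_lt hB, natDegree_mul hA.ne_zero hB]
      omega
    constructor
    · rintro ⟨hr, B, rfl⟩
      exact ⟨B, (hiff B).mp hr, rfl⟩
    · rintro ⟨B, hB, rfl⟩
      exact ⟨(hiff B).mpr hB, dvd_mul_right A B⟩
  rw [h, Finset.card_image_of_injective _ fun a b h => mul_left_cancel₀ hA.ne_zero h,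
    card_lowSet]

/-- The common divisors of two polynomials. -/
theorem sum_moe_common {g : k[X]} (hg : g.Monic) (r : k[X]) :
    ∑ A ∈ (upTo k g.natDegree).filter (fun A => A ∣ g ∧ A ∣ r), moe A =
      if IsCoprime g r then 1 else 0 := by
  split_ifs with hc
  · rw [Finset.sum_eq_single_of_mem 1 (Finset.mem_filter.mpr
      ⟨mem_upTo.mpr ⟨monic_one, by simp⟩, one_dvd g, one_dvd r⟩) fun A hA hne => absurd ?_ hne,
      moe_one]
    obtain ⟨hA, h1, h2⟩ := Finset.mem_filter.mp hA
    exact (mem_upTo.mp hA).1.isUnit_iff.mp (hc.isUnit_of_dvd' h1 h2)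
  · obtain ⟨P', hP', hPg', hPr'⟩ : ∃ P, Irreducible P ∧ P ∣ g ∧ P ∣ r := by
      by_contra hno
      push Not at hno
      exact hc (isCoprime_of_irreducible_dvd (fun h => hg.ne_zero h.1) hno)
    have hPm := monic_normalize hP'.ne_zero
    have hP : Irreducible (normalize P') := (normalize_associated P').symm.irreducible hP'
    have hPg : normalize P' ∣ g := normalize_dvd_iff.mpr hPg'
    have hPr : normalize P' ∣ r := normalize_dvd_iff.mpr hPr'
    refine sum_moe_eq_zero hP (fun A hA _ hn => ?_) fun A hA => ?_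
    · obtain ⟨hA, hAg, hAr⟩ := Finset.mem_filter.mp hA
      have hcop := hP.coprime_iff_not_dvd.mpr hn
      have hdvd := hcop.mul_dvd hPg hAg
      exact Finset.mem_filter.mpr ⟨mem_upTo.mpr ⟨hPm.mul (mem_upTo.mp hA).1,
        natDegree_le_of_dvd hdvd hg.ne_zero⟩, hdvd, hcop.mul_dvd hPr hAr⟩
    · obtain ⟨hA, hAg, hAr⟩ := Finset.mem_filter.mp hA
      obtain ⟨hm, hdeg⟩ := mem_upTo.mp hA
      have hAm := hPm.of_mul_monic_left hm
      rw [hPm.natDegree_mul hAm] at hdeg
      exact Finset.mem_filter.mpr ⟨mem_upTo.mpr ⟨hAm, by omega⟩,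
        dvd_of_mul_left_dvd hAg, dvd_of_mul_left_dvd hAr⟩

/-- The residues prime to `g`, summed over all monic `g` of degree `j`. -/
theorem sum_card_coprime (j : ℕ) :
    ∑ g ∈ monicSet k (j + 1), (((lowSet k (2 * (j + 1))).filter (IsCoprime g ·)).card : ℤ) =
      (Fintype.card k : ℤ) ^ (3 * j + 3) - (Fintype.card k : ℤ) ^ (3 * j + 2) := by
  have h : ∀ g ∈ monicSet k (j + 1),
      (((lowSet k (2 * (j + 1))).filter (IsCoprime g ·)).card : ℤ) =
        ∑ A ∈ (upTo k (j + 1)).filter (· ∣ g),
          moe A * (Fintype.card k : ℤ) ^ (2 * (j + 1) - A.natDegree) := fun g hg => by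
    obtain ⟨hgm, hgd⟩ := mem_monicSet.mp hg
    rw [← Finset.sum_boole, Finset.sum_congr rfl fun r _ => (sum_moe_common hgm r).symm, hgd]
    simp only [Finset.sum_filter]
    rw [Finset.sum_comm]
    refine Finset.sum_congr rfl fun A hA => ?_
    obtain ⟨hAm, hAd⟩ := mem_upTo.mp hA
    split_ifs with hAg
    · simp only [hAg, true_and]
      rw [← Finset.sum_filter, Finset.sum_const, card_lowSet_dvd hAm (by omega), nsmul_eq_mul,
        mul_comm]
      push_cast
      rfl
    · exact Finset.sum_eq_zero fun r _ => if_neg fun h => hAg h.1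
  rw [Finset.sum_congr rfl h]
  simp only [Finset.sum_filter]
  rw [Finset.sum_comm, sum_upTo]
  have h2 : ∀ a ∈ Finset.range (j + 1 + 1), ∑ A ∈ monicSet k a, ∑ g ∈ monicSet k (j + 1),
      (if A ∣ g then moe A * (Fintype.card k : ℤ) ^ (2 * (j + 1) - A.natDegree) else 0) =
      (∑ A ∈ monicSet k a, moe A) *
        ((Fintype.card k : ℤ) ^ (2 * (j + 1) - a) * (Fintype.card k : ℤ) ^ (j + 1 - a)) :=
    fun a ha => by
      rw [Finset.sum_mul]
      refine Finset.sum_congr rfl fun A hA => ?_
      obtain ⟨hAm, hAd⟩ := mem_monicSet.mp hA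
      rw [← Finset.sum_filter, Finset.sum_const, filter_dvd_monicSet hAm
        (by simp at ha; omega), Finset.card_image_of_injective _ fun x y e =>
          mul_left_cancel₀ hAm.ne_zero e, card_monicSet, nsmul_eq_mul, hAd]
      push_cast
      ring
  rw [Finset.sum_congr rfl h2, Finset.sum_eq_add_of_mem 0 1 (by simp) (by simp) zero_ne_one
    fun a _ ha => by rw [sum_moe_monicSet, if_neg ha.1, if_neg ha.2, zero_mul]]
  rw [sum_moe_monicSet, sum_moe_monicSet, if_pos rfl, if_neg one_ne_zero, if_pos rfl]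
  simp only [Nat.sub_zero, Nat.add_sub_cancel, show 2 * (j + 1) - 1 = 2 * j + 1 by omega]
  ring

/-- The sum of the symbol over the residues. -/
def residueSum (f : k[X]) : ℤ := ∑ r ∈ lowSet k f.natDegree, symbol f r

/-- **Orthogonality.** -/
theorem residueSum_eq_zero (hk : ringChar k ≠ 2) {f : k[X]} (hf : f.Monic)
    (hns : ∀ E : k[X], E.Monic → f ≠ E ^ 2) : residueSum f = 0 := by
  obtain ⟨r₀, hr₀⟩ := exists_symbol_eq_neg_one hk hf hns
  have hcop : IsCoprime f r₀ := (res_ne_zero_iff hf).mp fun e => by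
    rw [symbol, e, quadraticChar_zero] at hr₀
    exact absurd hr₀ (by norm_num)
  have hinj : Set.InjOn (fun r => r₀ * r %ₘ f) ↑(lowSet k f.natDegree) := fun r hr r' hr' h => by
    refine sub_eq_zero.mp (eq_zero_of_dvd_of_degree_lt (p := f) (hcop.dvd_of_dvd_mul_left ?_)
      ((degree_sub_le r r').trans_lt
        (max_lt (degree_lt_of_monic_deg hf hr) (degree_lt_of_monic_deg hf hr'))))
    have h' : r₀ * r %ₘ f = r₀ * r' %ₘ f := h
    rw [mul_sub]
    exact ⟨r₀ * r /ₘ f - r₀ * r' /ₘ f, by
      linear_combination h' -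
        modByMonic_add_div (r₀ * r) f + modByMonic_add_div (r₀ * r') f⟩
  have himg : (lowSet k f.natDegree).image (fun r => r₀ * r %ₘ f) = lowSet k f.natDegree :=
    Finset.eq_of_subset_of_card_le (fun r hr => by
      obtain ⟨s, -, rfl⟩ := Finset.mem_image.mp hr
      exact mem_lowSet.mpr ((degree_modByMonic_lt _ hf).trans_eq (degree_eq_natDegree hf.ne_zero)))
      (Finset.card_image_of_injOn hinj).ge
  have h : residueSum f = -residueSum f := by
    conv_lhs => rw [residueSum, ← himg, Finset.sum_image hinj]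
    rw [residueSum, ← Finset.sum_neg_distrib]
    refine Finset.sum_congr rfl fun r _ => ?_
    rw [symbol_congr hf (E := r₀ * r) ⟨-(r₀ * r /ₘ f), by
        linear_combination modByMonic_add_div (r₀ * r) f⟩, symbol_mul_right hf, hr₀,
      neg_one_mul]
  omega

theorem residueSum_sq {g : k[X]} (hg : g.Monic) :
    residueSum (g ^ 2) = (((lowSet k (2 * g.natDegree)).filter (IsCoprime g ·)).card : ℤ) := by
  rw [residueSum, natDegree_pow, Finset.sum_congr rfl fun r _ => symbol_sq_left hg r,
    Finset.sum_boole]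

/-- The coefficient of `u ^ n` of the L-function. -/
def coeffL (D : k[X]) (n : ℕ) : ℤ := ∑ f ∈ monicSet k n, symbol f D

/-- **The L-function of a nonsquare is a polynomial.** -/
theorem coeffL_eq_zero (hk : ringChar k ≠ 2) {D : k[X]} (hD : D.Monic)
    (hns : ∀ E : k[X], E.Monic → D ≠ E ^ 2) {n : ℕ} (hn : D.natDegree ≤ n) : coeffL D n = 0 := by
  rw [coeffL, Finset.sum_congr rfl fun f hf => by
    rw [symbol_swap f D, (mem_monicSet.mp hf).2], ← Finset.mul_sum,
    sum_periodic hD hn (symbol D) fun E E' h => symbol_congr hD h]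
  change _ * (_ * residueSum D) = 0
  rw [residueSum_eq_zero hk hD hns, mul_zero, mul_zero]

theorem coeffL_zero (D : k[X]) : coeffL D 0 = 1 := by
  simp [coeffL, monicSet_zero, symbol_one_left]

/-- **The averages of the coefficients.** -/
theorem sum_coeffL (hk : ringChar k ≠ 2) {m n : ℕ} (h0 : n ≠ 0) (hn : n ≤ m) :
    ∑ D ∈ monicSet k m, coeffL D n =
      if Even n then (Fintype.card k : ℤ) ^ (m + n / 2) - (Fintype.card k : ℤ) ^ (m + n / 2 - 1)
      else 0 := by
  have hS : ∑ D ∈ monicSet k m, coeffL D n =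
      (Fintype.card k : ℤ) ^ (m - n) * ∑ f ∈ monicSet k n, residueSum f := by
    simp only [coeffL]
    rw [Finset.sum_comm, Finset.mul_sum]
    refine Finset.sum_congr rfl fun f hf => ?_
    obtain ⟨hfm, hfd⟩ := mem_monicSet.mp hf
    rw [sum_periodic hfm (hfd ▸ hn) (symbol f) fun D E h => symbol_congr hfm h, hfd,
      residueSum, hfd]
  rw [hS]
  split_ifs with he
  · obtain ⟨i, rfl⟩ : ∃ i, n = 2 * (i + 1) := by
      obtain ⟨t, rfl⟩ := he
      exact ⟨t - 1, by omega⟩
    have hinj : Set.InjOn (fun g : k[X] => g ^ 2) ↑(monicSet k (i + 1)) := fun a ha b hb h => by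
      rcases eq_or_eq_neg_of_sq_eq_sq a b h with e | e
      · exact e
      · have := congrArg Polynomial.leadingCoeff e
        rw [(mem_monicSet.mp ha).1.leadingCoeff, leadingCoeff_neg,
          (mem_monicSet.mp hb).1.leadingCoeff] at this
        exact absurd this.symm (Ring.neg_one_ne_one_of_char_ne_two hk)
    have hsum : ∑ f ∈ monicSet k (2 * (i + 1)), residueSum f =
        ∑ g ∈ monicSet k (i + 1), residueSum (g ^ 2) := by
      rw [← Finset.sum_image hinj]
      refine (Finset.sum_subset (fun f hf => ?_) fun f hf hn' => ?_).symm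
      · obtain ⟨g, hg, rfl⟩ := Finset.mem_image.mp hf
        obtain ⟨hgm, hgd⟩ := mem_monicSet.mp hg
        exact mem_monicSet.mpr ⟨hgm.pow 2, by rw [natDegree_pow, hgd]⟩
      · obtain ⟨hfm, hfd⟩ := mem_monicSet.mp hf
        refine residueSum_eq_zero hk hfm fun E hE e => hn' (Finset.mem_image.mpr
          ⟨E, mem_monicSet.mpr ⟨hE, ?_⟩, e.symm⟩)
        rw [e, natDegree_pow] at hfd
        omega
    rw [hsum, Finset.sum_congr rfl fun g hg => by
      rw [residueSum_sq (mem_monicSet.mp hg).1, (mem_monicSet.mp hg).2], sum_card_coprime,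
      show 2 * (i + 1) / 2 = i + 1 by omega]
    obtain ⟨d, rfl⟩ : ∃ d, m = 2 * (i + 1) + d := ⟨m - 2 * (i + 1), by omega⟩
    rw [Nat.add_sub_cancel_left, show 2 * (i + 1) + d + (i + 1) - 1 = d + (3 * i + 2) by omega,
      show 2 * (i + 1) + d + (i + 1) = d + (3 * i + 3) by omega]
    ring
  · rw [Finset.sum_eq_zero fun f hf => ?_, mul_zero]
    obtain ⟨hfm, hfd⟩ := mem_monicSet.mp hf
    exact residueSum_eq_zero hk hfm fun E _ e => he
      (by rw [← hfd, e, natDegree_pow]; exact even_two_mul _)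

theorem not_sq_of_odd {D : k[X]} (hodd : Odd D.natDegree) (E : k[X]) (_ : E.Monic) :
    D ≠ E ^ 2 := fun e => by
  rw [e, natDegree_pow] at hodd
  exact Nat.not_even_iff_odd.mpr hodd (even_two_mul _)

/-- The L-function at a real `u`. -/
def lvalue (D : k[X]) (u : ℝ) : ℝ := ∑' n, (coeffL D n : ℝ) * u ^ n

theorem lvalue_eq_sum (hk : ringChar k ≠ 2) {D : k[X]} (hD : D.Monic)
    (hns : ∀ E : k[X], E.Monic → D ≠ E ^ 2) (u : ℝ) :
    lvalue D u = ∑ n ∈ Finset.range D.natDegree, (coeffL D n : ℝ) * u ^ n :=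
  tsum_eq_sum fun n hn => by
    rw [coeffL_eq_zero hk hD hns (not_lt.mp fun h => hn (Finset.mem_range.mpr h))]
    simp

/-- **The average of the L-functions** in odd degree. -/
theorem average_lvalue (hk : ringChar k ≠ 2) (J : ℕ) (u : ℝ) :
    (∑ D ∈ monicSet k (2 * J + 1), lvalue D u) / (Fintype.card k : ℝ) ^ (2 * J + 1) =
      1 + (1 - (Fintype.card k : ℝ)⁻¹) *
        ∑ j ∈ Finset.range J, ((Fintype.card k : ℝ) * u ^ 2) ^ (j + 1) := by
  set q : ℝ := (Fintype.card k : ℝ)
  have hq : q ≠ 0 := by simp [q]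
  rw [Finset.sum_congr rfl fun D hD => by
    obtain ⟨hm, hd⟩ := mem_monicSet.mp hD
    rw [lvalue_eq_sum hk hm (not_sq_of_odd (hd ▸ odd_two_mul_add_one J)) u, hd],
    Finset.sum_comm]
  simp only [← Finset.sum_mul, ← Int.cast_sum]
  have key : ∀ I ≤ J, ∑ n ∈ Finset.range (2 * I + 1),
      ((∑ D ∈ monicSet k (2 * J + 1), coeffL D n : ℤ) : ℝ) * u ^ n =
      q ^ (2 * J + 1) * (1 + (1 - q⁻¹) * ∑ j ∈ Finset.range I, (q * u ^ 2) ^ (j + 1)) := by
    intro I hI
    induction I with
    | zero => simp [coeffL_zero, card_monicSet, q]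
    | succ I ih =>
      rw [show 2 * (I + 1) + 1 = 2 * I + 1 + 1 + 1 by ring, Finset.sum_range_succ,
        Finset.sum_range_succ, ih (by omega), sum_coeffL hk (by omega) (by omega),
        sum_coeffL hk (by omega) (by omega),
        if_neg (Nat.not_even_iff_odd.mpr (odd_two_mul_add_one I)),
        if_pos ⟨I + 1, by ring⟩, show (2 * I + 1 + 1) / 2 = I + 1 by omega,
        Finset.sum_range_succ]
      push_cast
      rw [show 2 * J + 1 + (I + 1) - 1 = 2 * J + 1 + I by omega]
      field_simp
      ring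
  rw [key J le_rfl, mul_div_cancel_left₀ _ (pow_ne_zero _ hq)]

end FA.QuadraticLFF
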