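import Fermat.Agent.BunyakovskyFails.Parity
import Mathlib.FieldTheory.Finite.GaloisField

/-!
# The quadratic symbol of `F_q[t]`

For monic `f` the symbol `(D / f)` is the quadratic character of the resultant of `f` and `D`. It
is multiplicative in both arguments, periodic modulo `f`, symmetric up to a sign, and the residue
symbol at an irreducible `f`.
-/

set_option autoImplicit false
set_option linter.style.openClassical false
set_option linter.style.haveILetI false
set_option linter.unusedSectionVars false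

noncomputable section

open scoped Classical

namespace FA.QuadraticLFF

open Polynomial

section Resultant

variable {k : Type*} [Field k] {f g h D : k[X]}

local notation "φc" => algebraMap k (AlgebraicClosure k)

theorem map_res (hf : f.Monic) (g : k[X]) :
    φc (resultant f g) = ((f.map φc).roots.map (g.map φc).eval).prod :=
  BunyakovskyFails.map_resultant_monic φc hf (IsAlgClosed.splits _) g

theorem res_mul_right (hf : f.Monic) (g h : k[X]) :
    resultant f (g * h) = resultant f g * resultant f h := by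
  refine (φc).injective ?_
  rw [map_mul, map_res hf, map_res hf, map_res hf, ← Multiset.prod_map_mul]
  simp

theorem res_congr (hf : f.Monic) (h' : f ∣ g - h) : resultant f g = resultant f h := by
  refine (φc).injective ?_
  rw [map_res hf, map_res hf]
  refine congrArg Multiset.prod (Multiset.map_congr rfl fun x hx => ?_)
  obtain ⟨c, hc⟩ := h'
  have h0 : (f.map φc).eval x = 0 := (mem_roots (hf.map φc).ne_zero).mp hx
  have := congrArg (fun p => (p.map φc).eval x) hc
  simpa [h0, sub_eq_zero] using this

theorem res_mul_left (hf : f.Monic) (hg : g.Monic) (D : k[X]) :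
    resultant (f * g) D = resultant f D * resultant g D := by
  refine (φc).injective ?_
  rw [map_mul, map_res (hf.mul hg), map_res hf, map_res hg, Polynomial.map_mul,
    roots_mul (mul_ne_zero (hf.map φc).ne_zero (hg.map φc).ne_zero), Multiset.map_add,
    Multiset.prod_add]

theorem res_one_left (D : k[X]) : resultant (1 : k[X]) D = 1 := by
  refine (φc).injective ?_
  rw [map_res monic_one, map_one]
  simp

theorem res_one_right (hf : f.Monic) : resultant f (1 : k[X]) = 1 := by
  refine (φc).injective ?_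
  rw [map_res hf, map_one]
  simp

theorem res_pow_left (hf : f.Monic) (e : ℕ) (D : k[X]) :
    resultant (f ^ e) D = resultant f D ^ e := by
  induction e with
  | zero => rw [pow_zero, pow_zero, res_one_left]
  | succ e ih => rw [pow_succ, res_mul_left (hf.pow e) hf, ih, pow_succ]

theorem res_ne_zero_iff (hf : f.Monic) : resultant f g ≠ 0 ↔ IsCoprime f g := by
  rw [Ne, resultant_eq_zero_iff]
  exact ⟨fun h => not_not.mp fun hc => h ⟨Or.inl hf.ne_zero, hc⟩, fun h hc => hc.2 h⟩

end Resultant

variable {k : Type*} [Field k] [Fintype k]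

/-- The quadratic symbol `(D / f)` for monic `f`. -/
def symbol (f D : k[X]) : ℤ := quadraticChar k (resultant f D)

variable {f g D : k[X]}

theorem symbol_mul_right (hf : f.Monic) (D E : k[X]) :
    symbol f (D * E) = symbol f D * symbol f E := by
  rw [symbol, symbol, symbol, res_mul_right hf, map_mul]

theorem symbol_congr (hf : f.Monic) {D E : k[X]} (h : f ∣ D - E) : symbol f D = symbol f E := by
  rw [symbol, symbol, res_congr hf h]

theorem symbol_one_left (D : k[X]) : symbol 1 D = 1 := by
  rw [symbol, res_one_left, map_one]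

theorem symbol_swap (f D : k[X]) :
    symbol f D = quadraticChar k ((-1) ^ (f.natDegree * D.natDegree)) * symbol D f := by
  rw [symbol, symbol, ← map_mul, ← resultant_comm]

theorem symbol_sq_left (hg : g.Monic) (D : k[X]) :
    symbol (g ^ 2) D = if IsCoprime g D then 1 else 0 := by
  rw [symbol, res_pow_left hg, map_pow]
  split_ifs with hc
  · exact quadraticChar_sq_one ((res_ne_zero_iff hg).mpr hc)
  · rw [not_not.mp (mt (res_ne_zero_iff hg).mp hc), quadraticChar_zero, zero_pow two_ne_zero]

/-- The resultant with an irreducible is the norm of the residue. -/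
theorem resultant_eq_norm {P : k[X]} (hm : P.Monic) (hP : Irreducible P) (D : k[X]) :
    resultant P D = Algebra.norm k (AdjoinRoot.mk P D) := by
  haveI := Fact.mk hP
  haveI : Module.Finite k (AdjoinRoot P) := hm.finite_adjoinRoot
  haveI : Algebra.IsSeparable k (AdjoinRoot P) := inferInstance
  set K := AlgebraicClosure k
  refine (algebraMap k K).injective ?_
  rw [map_res hm, Algebra.norm_eq_prod_embeddings k K]
  have hnd : (P.map (algebraMap k K)).roots.Nodup :=
    nodup_roots (Separable.map (PerfectField.separable_of_irreducible hP))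
  rw [show ((P.map (algebraMap k K)).roots.map fun x => (D.map (algebraMap k K)).eval x).prod =
      ∏ x ∈ (P.map (algebraMap k K)).roots.toFinset, (D.map (algebraMap k K)).eval x by
    rw [Finset.prod_eq_multiset_prod, Multiset.toFinset_val, hnd.dedup]]
  refine (Finset.prod_bij (fun σ _ => σ (AdjoinRoot.root P)) (fun σ _ => ?_) (fun σ _ τ _ h => ?_)
    (fun x hx => ?_) fun σ _ => ?_).symm
  · rw [Multiset.mem_toFinset, mem_roots (hm.map _).ne_zero, IsRoot, eval_map_algebraMap,
      aeval_algHom_apply, AdjoinRoot.aeval_eq, AdjoinRoot.mk_self, map_zero]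
  · exact AdjoinRoot.algHom_ext h
  · rw [Multiset.mem_toFinset] at hx
    refine ⟨(AdjoinRoot.equiv K k P hP.ne_zero).symm ⟨x, hx⟩, Finset.mem_univ _, ?_⟩
    exact congrArg Subtype.val ((AdjoinRoot.equiv K k P hP.ne_zero).apply_symm_apply ⟨x, hx⟩)
  · rw [eval_map_algebraMap, aeval_algHom_apply, AdjoinRoot.aeval_eq]

/-- **The symbol at an irreducible is the residue symbol.** -/
theorem symbol_irreducible (hk : ringChar k ≠ 2) {P : k[X]} (hm : P.Monic) (hP : Irreducible P)
    {D : k[X]} (h : ¬ P ∣ D) :
    (symbol P D = 1 ↔ IsSquare (AdjoinRoot.mk P D)) ∧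
      (symbol P D = -1 ↔ ¬ IsSquare (AdjoinRoot.mk P D)) := by
  haveI := Fact.mk hP
  haveI : Module.Finite k (AdjoinRoot P) := hm.finite_adjoinRoot
  haveI : Finite (AdjoinRoot P) := Module.finite_of_finite k
  haveI := Fintype.ofFinite (AdjoinRoot P)
  set L := AdjoinRoot P
  set x := AdjoinRoot.mk P D
  have hx : x ≠ 0 := fun e => h (AdjoinRoot.mk_eq_zero.mp e)
  have hN : ∀ y : L, y ≠ 0 → Algebra.norm k y ≠ 0 := fun y => Algebra.norm_ne_zero_iff.mpr
  have hval : symbol P D = quadraticChar k (Algebra.norm k x) := by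
    rw [symbol, resultant_eq_norm hm hP]
  have hsq : ∀ y : L, y ≠ 0 → IsSquare y → quadraticChar k (Algebra.norm k y) = 1 := by
    rintro y hy ⟨z, rfl⟩
    rw [map_mul, map_mul, ← pow_two]
    exact quadraticChar_sq_one (hN z (left_ne_zero_of_mul hy))
  have hnsq : ¬ IsSquare x → symbol P D = -1 := fun hn => by
    obtain ⟨a, ha⟩ := quadraticChar_exists_neg_one hk
    obtain ⟨x₀, hx₀⟩ := FiniteField.norm_surjective k L a
    have ha0 : a ≠ 0 := fun e => by rw [e, quadraticChar_zero] at ha; exact absurd ha (by norm_num)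
    have hx00 : x₀ ≠ 0 := fun e => ha0 (by rw [← hx₀, e, Algebra.norm_zero])
    have hn0 : ¬ IsSquare x₀ := fun hs => by
      rw [← hx₀, hsq x₀ hx00 hs] at ha
      exact absurd ha (by norm_num)
    have hprod : IsSquare (x * x₀) := by
      rw [← quadraticChar_one_iff_isSquare (mul_ne_zero hx hx00), map_mul,
        quadraticChar_neg_one_iff_not_isSquare.mpr hn,
        quadraticChar_neg_one_iff_not_isSquare.mpr hn0]
      rfl
    have h1 := hsq _ (mul_ne_zero hx hx00) hprod
    rw [map_mul, map_mul, hx₀, ha, ← hval] at h1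
    omega
  by_cases hs : IsSquare x
  · have h1 : symbol P D = 1 := hval.trans (hsq x hx hs)
    exact ⟨iff_of_true h1 hs, iff_of_false (by omega) (not_not.mpr hs)⟩
  · have h1 := hnsq hs
    exact ⟨iff_of_false (by omega) hs, iff_of_true h1 hs⟩

/-- A nonsquare takes both signs on the residues prime to it. -/
theorem exists_symbol_eq_neg_one (hk : ringChar k ≠ 2) {D : k[X]} (hD : D.Monic)
    (hns : ∀ E : k[X], E.Monic → D ≠ E ^ 2) :
    ∃ r : k[X], symbol D r = -1 := by
  obtain ⟨A, hA, hmax⟩ : ∃ A : k[X], (A.Monic ∧ A ^ 2 ∣ D) ∧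
      ∀ B : k[X], B.Monic → B ^ 2 ∣ D → B.natDegree ≤ A.natDegree := by
    have hbdd : BddAbove {n | ∃ B : k[X], B.Monic ∧ B ^ 2 ∣ D ∧ B.natDegree = n} :=
      ⟨D.natDegree, by
        rintro _ ⟨B, hB, hd, rfl⟩
        have := natDegree_le_of_dvd hd hD.ne_zero
        rw [natDegree_pow] at this
        omega⟩
    obtain ⟨A, hA, hd, hn⟩ := Nat.sSup_mem (s := {n | ∃ B : k[X], B.Monic ∧ B ^ 2 ∣ D ∧
      B.natDegree = n}) ⟨0, 1, monic_one, by simp, natDegree_one⟩ hbdd
    exact ⟨A, ⟨hA, hd⟩, fun B hB hB' => hn ▸ le_csSup hbdd ⟨B, hB, hB', rfl⟩⟩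
  obtain ⟨hA, ⟨B, rfl⟩⟩ := hA
  have hB : B.Monic := (hA.pow 2).of_mul_monic_left hD
  have hB1 : B ≠ 1 := fun e => hns A hA (by rw [e, mul_one])
  obtain ⟨P', hP', hPB'⟩ := Polynomial.exists_irreducible_of_natDegree_ne_zero (f := B)
    fun e => hB1 (hB.natDegree_eq_zero.mp e)
  have hP : Irreducible (normalize P') := (normalize_associated P').symm.irreducible hP'
  obtain ⟨B', rfl⟩ : normalize P' ∣ B := normalize_dvd_iff.mpr hPB'
  have hPm := monic_normalize hP'.ne_zero
  generalize normalize P' = P at hP hPm hmax hB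
  have hB' := hPm.of_mul_monic_left hB
  have hPB : ¬ P ∣ B' := fun ⟨C, hC⟩ => by
    have := hmax (A * P) (hA.mul hPm) ⟨C, by rw [hC]; ring⟩
    rw [hA.natDegree_mul hPm] at this
    have := hP.natDegree_pos
    omega
  obtain ⟨j, a, hPa, rfl⟩ := WfDvdMonoid.max_power_factor hA.ne_zero hP
  have ha : a.Monic := (hPm.pow j).of_mul_monic_left hA
  obtain ⟨u, v, huv⟩ := (hP.coprime_iff_not_dvd.mpr hPa).mul_right
    (hP.coprime_iff_not_dvd.mpr hPB)
  obtain ⟨c, hc⟩ := quadraticChar_exists_neg_one hk
  haveI := Fact.mk hP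
  haveI : Module.Finite k (AdjoinRoot P) := hPm.finite_adjoinRoot
  haveI : Finite (AdjoinRoot P) := Module.finite_of_finite k
  haveI := Fintype.ofFinite (AdjoinRoot P)
  obtain ⟨x₀, hx₀⟩ := FiniteField.norm_surjective k (AdjoinRoot P) c
  obtain ⟨r₀, rfl⟩ := AdjoinRoot.mk_surjective x₀
  refine ⟨r₀ * v * (a * B') + u * P, ?_⟩
  set r := r₀ * v * (a * B') + u * P
  have hone : ∀ e : k[X], e.Monic → e ∣ a * B' → resultant e r = 1 := fun e he hd => by
    rw [res_congr he (h := 1) (hd.trans ⟨(r₀ - 1) * v, by linear_combination huv⟩),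
      res_one_right he]
  rw [symbol, res_mul_left (((hPm.pow j).mul ha).pow 2) hB, res_mul_left hPm hB',
    res_pow_left ((hPm.pow j).mul ha), res_mul_left (hPm.pow j) ha, res_pow_left hPm,
    hone a ha (dvd_mul_right a B'), hone B' hB' (dvd_mul_left B' a),
    res_congr hPm (h := r₀) ⟨u * (1 - r₀), by linear_combination r₀ * huv⟩,
    resultant_eq_norm hPm hP, hx₀, mul_one, mul_one, map_mul, map_pow, map_pow, hc]
  rw [← pow_mul, mul_comm j 2, pow_mul, neg_one_sq, one_pow, one_mul]

end FA.QuadraticLFF
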